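import Fermat.Agent.AbVar.Spread.Cocycle

/-!
# Twisted sections and flat base change
-/

set_option autoImplicit false

universe u

noncomputable section

open CategoryTheory CategoryTheory.Limits AlgebraicGeometry TopologicalSpace TensorProduct

namespace Fermat.Agent.AbVar

/-- A nonzero element of the kernel of a base change yields one of the original map. -/
theorem exists_ker_image_ne_zero {R R' : Type u} [CommRing R] [CommRing R'] [Algebra R R']
    [Module.Flat R R']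
    {M N M' N' : Type u} [AddCommGroup M] [Module R M] [AddCommGroup N] [Module R N]
    [AddCommGroup M'] [Module R M'] [Module R' M'] [IsScalarTower R R' M']
    [AddCommGroup N'] [Module R N'] [Module R' N'] [IsScalarTower R R' N']
    {μ : M →ₗ[R] M'} {ν : N →ₗ[R] N'} (hμ : IsBaseChange R' μ) (hν : IsBaseChange R' ν)
    (δ : M →ₗ[R] N) (δ' : M' →ₗ[R'] N') (comm : ∀ m, δ' (μ m) = ν (δ m))
    {x : M'} (hx : δ' x = 0) (hx0 : x ≠ 0) : ∃ m, δ m = 0 ∧ μ m ≠ 0 := by
  by_contra! hzero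
  obtain ⟨z, rfl⟩ := hμ.equiv.surjective x
  have key : ∀ z, δ' (hμ.equiv z) = hν.equiv (δ.lTensor R' z) := fun z => by
    induction z using TensorProduct.induction_on with
    | zero => simp
    | add a b ha hb => simp [ha, hb]
    | tmul a m => simp [IsBaseChange.equiv_tmul, comm]
  obtain ⟨w, rfl⟩ := (Module.Flat.lTensor_exact R' (LinearMap.exact_subtype_ker_map δ) z).mp
    (hν.equiv.injective (by rw [← key, hx, map_zero]))
  refine hx0 ?_
  clear hx hx0
  induction w using TensorProduct.induction_on with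
  | zero => simp
  | add a b ha hb => simp [ha, hb]
  | tmul a m => simp [IsBaseChange.equiv_tmul, hzero m m.2]

variable {P P' S T : Scheme.{u}} {q : P' ⟶ P} {iY : P' ⟶ T} {p : P ⟶ S} {f : T ⟶ S}

/-- A nonzero twisted section after a flat affine base change comes from a twisted section whose
pull-back is nonzero. -/
theorem exists_section_pullback_ne_zero (H : IsPullback q iY p f) [IsSeparated p] [IsAffine T]
    {US : S.Opens} (hUS : IsAffineOpen US) (hUT : (⊤ : T.Opens) ≤ f ⁻¹ᵁ US)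
    (hflat : (f.appLE US ⊤ hUT).hom.Flat)
    {κ : Type u} [Finite κ] (V : κ → P.Opens) (hV : ∀ j, IsAffineOpen (V j))
    (hVU : ∀ j, V j ≤ p ⁻¹ᵁ US) (G : ∀ j l, Γ(P, V j ⊓ V l)) (x : ∀ j, Γ(P', q ⁻¹ᵁ V j))
    (hx : ∀ j l, res P' inf_le_left (x j) =
      pl q (le_refl (q ⁻¹ᵁ V j ⊓ q ⁻¹ᵁ V l)) (G j l) * res P' inf_le_right (x l))
    (hx0 : ∃ j, x j ≠ 0) :
    ∃ m : ∀ j, Γ(P, V j), (∀ j l, res P inf_le_left (m j) = G j l * res P inf_le_right (m l)) ∧
      ∃ j, pl q le_rfl (m j) ≠ 0 := by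
  algebraize [(f.appLE US ⊤ hUT).hom]
  have hinf : ∀ j l, IsAffineOpen (V j ⊓ V l) := fun j l =>
    isAffineHom_diagonal_iff.mp inferInstance US hUS _ (hVU j) _ (hVU l) (hV j) (hV l)
  -- Functions on the opens over `US` are modules over `Γ(S, US)`; those upstairs are their base
  -- change to `Γ(T, ⊤)`.
  let iA (W : {W : P.Opens // W ≤ p ⁻¹ᵁ US}) : Algebra Γ(S, US) Γ(P, W.1) :=
    (p.appLE US W.1 W.2).hom.toAlgebra
  let iA' (W : P'.Opens) : Algebra Γ(T, ⊤) Γ(P', W) := (iY.appLE ⊤ W le_top).hom.toAlgebra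
  let iB (W : P'.Opens) : Algebra Γ(S, US) Γ(P', W) :=
    ((iY.appLE ⊤ W le_top).hom.comp (f.appLE US ⊤ hUT).hom).toAlgebra
  have : ∀ W : P'.Opens, IsScalarTower Γ(S, US) Γ(T, ⊤) Γ(P', W) := fun _ => .of_algebraMap_eq' rfl
  have hcomm : ∀ (W : P.Opens) (hW : W ≤ p ⁻¹ᵁ US) (W' : P'.Opens) (hW' : W' ≤ q ⁻¹ᵁ W)
      (r : Γ(S, US)), pl q hW' ((p.appLE US W hW).hom r) =
        (iY.appLE ⊤ W' le_top).hom ((f.appLE US ⊤ hUT).hom r) := fun W hW W' hW' r => by
    simp only [pl, ← CommRingCat.comp_apply, Scheme.Hom.appLE_comp_appLE, H.w]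
  let Q (W : {W : P.Opens // W ≤ p ⁻¹ᵁ US}) : Γ(P, W.1) →ₐ[Γ(S, US)] Γ(P', q ⁻¹ᵁ W.1) :=
    { pl q (le_refl (q ⁻¹ᵁ W.1)) with commutes' := hcomm W.1 W.2 _ le_rfl }
  have hbc : ∀ W : {W : P.Opens // W ≤ p ⁻¹ᵁ US}, IsAffineOpen W.1 →
      IsBaseChange Γ(T, ⊤) (Q W).toLinearMap := fun W hW => by
    let := (pl q (le_refl (q ⁻¹ᵁ W.1))).toAlgebra
    have : IsScalarTower Γ(S, US) Γ(P, W.1) Γ(P', q ⁻¹ᵁ W.1) :=
      .of_algebraMap_eq fun r => (hcomm W.1 W.2 _ le_rfl r).symm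
    have hp := (isIso_pushoutSection_iff H hUT W.2 (UY := q ⁻¹ᵁ W.1) (by simp)).mp
      (isIso_pushoutSection_of_isAffineOpen H hUT W.2 (by simp) hUS (isAffineOpen_top T) hW)
    exact (CommRingCat.isPushout_iff_isPushout (R := Γ(S, US)) (S := Γ(P, W.1)) (R' := Γ(T, ⊤))
      (S' := Γ(P', q ⁻¹ᵁ W.1))).mp hp.flip |>.out
  let U1 (j : κ) : {W : P.Opens // W ≤ p ⁻¹ᵁ US} := ⟨V j, hVU j⟩
  let U2 (x : κ × κ) : {W : P.Opens // W ≤ p ⁻¹ᵁ US} := ⟨V x.1 ⊓ V x.2, inf_le_left.trans (hVU x.1)⟩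
  -- Twisted sections are the kernel of `δ`, and `δ'` is its base change.
  let δ : (∀ j, Γ(P, (U1 j).1)) →ₗ[Γ(S, US)] ∀ x, Γ(P, (U2 x).1) :=
    { toFun := fun m x => res P inf_le_left (m x.1) - G x.1 x.2 * res P inf_le_right (m x.2)
      map_add' := fun m m' => by
        ext x
        simp only [Pi.add_apply, map_add]
        ring
      map_smul' := fun r m => by
        ext x
        simp only [Pi.smul_apply, RingHom.id_apply, Algebra.smul_def, RingHom.algebraMap_toAlgebra,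
          map_mul]
        have e : ∀ (l : κ) (W : P.Opens) (h : W ≤ V l) (h' : W ≤ p ⁻¹ᵁ US),
            res P h ((p.appLE US (V l) (hVU l)).hom r) = (p.appLE US W h').hom r :=
          fun l W h h' => res_pl p _ h r
        rw [e x.1 _ inf_le_left (U2 x).2, e x.2 _ inf_le_right (U2 x).2]
        ring }
  let δ' : (∀ j, Γ(P', q ⁻¹ᵁ (U1 j).1)) →ₗ[Γ(T, ⊤)] ∀ x, Γ(P', q ⁻¹ᵁ (U2 x).1) :=
    { toFun := fun m x => res P' (q.preimage_mono inf_le_left) (m x.1) -
        pl q le_rfl (G x.1 x.2) * res P' (q.preimage_mono inf_le_right) (m x.2)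
      map_add' := fun m m' => by
        ext x
        simp only [Pi.add_apply, map_add]
        ring
      map_smul' := fun r m => by
        ext x
        simp only [Pi.smul_apply, RingHom.id_apply, Algebra.smul_def, RingHom.algebraMap_toAlgebra,
          map_mul]
        have e : ∀ (l : κ) (W : P'.Opens) (h : W ≤ q ⁻¹ᵁ V l),
            res P' h ((iY.appLE ⊤ (q ⁻¹ᵁ V l) le_top).hom r) = (iY.appLE ⊤ W le_top).hom r :=
          fun l W h => res_pl iY _ h r
        rw [e x.1 _ (q.preimage_mono inf_le_left), e x.2 _ (q.preimage_mono inf_le_right)]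
        ring }
  -- By flatness a nonzero element of the kernel of `δ'` gives one of `δ` with nonzero pull-back.
  obtain ⟨j₀, hj₀⟩ := hx0
  obtain ⟨m, hm, hm0⟩ := exists_ker_image_ne_zero (IsBaseChange.pi _ fun j => hbc (U1 j) (hV j))
    (IsBaseChange.pi _ fun x => hbc (U2 x) (hinf x.1 x.2)) δ δ' (fun m => by
      ext x
      show res P' _ (pl q _ (m x.1)) - pl q _ (G x.1 x.2) * res P' _ (pl q _ (m x.2)) =
        pl q _ (res P _ (m x.1) - G x.1 x.2 * res P _ (m x.2))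
      simp only [map_sub, map_mul, res_pl, pl_res]) (x := x) (by
      ext y
      exact sub_eq_zero.mpr (hx y.1 y.2)) (fun h => hj₀ (congrFun h j₀))
  refine ⟨m, fun j l => sub_eq_zero.mp (congrFun hm (j, l)), ?_⟩
  by_contra! h
  exact hm0 (funext fun j => h j)

end Fermat.Agent.AbVar

end
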