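import Fermat.Agent.AbVar.Pic.Basic

/-!
# Cocycles trivialised by local families of units
-/

set_option autoImplicit false

universe u

noncomputable section

open CategoryTheory AlgebraicGeometry

namespace Fermat.Agent.AbVar

variable {X Y Z : Scheme.{u}}

/-- Pull-back of functions. -/
abbrev pl (φ : Y ⟶ X) {U : X.Opens} {V : Y.Opens} (h : V ≤ φ ⁻¹ᵁ U) : Γ(X, U) →+* Γ(Y, V) :=
  (φ.appLE U V h).hom

attribute [local simp] res_res

/-- Restricting a pulled-back function is pulling back to the smaller open. -/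
@[simp]
theorem res_pl (φ : Y ⟶ X) {U : X.Opens} {V W : Y.Opens} (h : V ≤ φ ⁻¹ᵁ U) (h' : W ≤ V)
    (x : Γ(X, U)) :
    res Y h' (pl φ h x) = pl φ (h'.trans h) x := by
  simp only [pl, res, ← CommRingCat.comp_apply, Scheme.Hom.appLE_map]

/-- Pulling back a restricted function is pulling back the function. -/
@[simp]
theorem pl_res (φ : Y ⟶ X) {U U' : X.Opens} {V : Y.Opens} (hU : U' ≤ U) (h : V ≤ φ ⁻¹ᵁ U')
    (x : Γ(X, U)) :
    pl φ h (res X hU x) = pl φ (h.trans (φ.preimage_mono hU)) x := by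
  simp only [pl, res, ← CommRingCat.comp_apply, Scheme.Hom.map_appLE]

/-- Successive pull-backs of functions are the pull-back along the composite. -/
theorem pl_pl (φ : Y ⟶ X) (ψ : Z ⟶ Y) {U : X.Opens} {V : Y.Opens} {W : Z.Opens} (h : V ≤ φ ⁻¹ᵁ U)
    (h' : W ≤ ψ ⁻¹ᵁ V) (h'' : W ≤ (ψ ≫ φ) ⁻¹ᵁ U) (x : Γ(X, U)) :
    pl ψ h' (pl φ h x) = pl (ψ ≫ φ) h'' x := by
  simp only [pl, ← CommRingCat.comp_apply, Scheme.Hom.appLE_comp_appLE]

theorem pl_congr {φ φ' : Y ⟶ X} (e : φ = φ') {U : X.Opens} {V : Y.Opens} (h : V ≤ φ ⁻¹ᵁ U)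
    (x : Γ(X, U)) :
    pl φ h x = pl φ' (e ▸ h) x := by
  subst e; rfl

/-- Restriction of functions to an open subscheme. -/
theorem pl_ι_bijective (W : X.Opens) {U : X.Opens} (hU : U ≤ W) :
    Function.Bijective (pl W.ι (le_refl (W.ι ⁻¹ᵁ U))) := by
  rw [pl, Scheme.Hom.appLE_eq_app]
  have : IsIso (W.ι.app U) := W.ι.isIso_app U (by simpa using hU)
  exact ConcreteCategory.bijective_of_isIso (W.ι.app U)

namespace Coc

/-- A cocycle on a finer cover. -/
def refine (c : Coc X) {κ : Type u} (V : κ → X.Opens) (τ : κ → c.ι) (hV : ∀ j, V j ≤ c.U (τ j))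
    (cov : (⨆ j, V j) = ⊤) : Coc X where
  ι := κ
  U := V
  covers := cov
  g j l := Units.map (res X (inf_le_inf (hV j) (hV l))).toMonoidHom (c.g (τ j) (τ l))
  cocycle a b d W hab hbc hac := by
    simp only [Units.coe_map, RingHom.toMonoidHom_eq_coe, MonoidHom.coe_coe, res_res]
    exact c.cocycle _ _ _ W _ _ _

theorem mk_refine (c : Coc X) {κ : Type u} (V : κ → X.Opens) (τ : κ → c.ι)
    (hV : ∀ j, V j ≤ c.U (τ j)) (cov : (⨆ j, V j) = ⊤) :
    Pic.mk (c.refine V τ hV cov) = Pic.mk c := by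
  symm
  exact Pic.mk_eq_mk_of_refine c _ τ hV fun j l W h h' => Units.ext (res_res _ h _)

/-- A cocycle with a family of units compatible with it on a finer cover is trivial. -/
theorem mk_eq_zero_of_local (c : Coc X) {κ : Type u} (V : κ → X.Opens) (τ : κ → c.ι)
    (hV : ∀ j, V j ≤ c.U (τ j)) (cov : (⨆ j, V j) = ⊤) (t : ∀ j, Γ(X, V j)) (ht : ∀ j, IsUnit (t j))
    (h : ∀ (j l : κ) (W : X.Opens) (hj : W ≤ V j) (hl : W ≤ V l),
      res X hj (t j) =
        res X (le_inf (hj.trans (hV j)) (hl.trans (hV l))) (c.g (τ j) (τ l) :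
          Γ(X, c.U (τ j) ⊓ c.U (τ l))) *
          res X hl (t l)) :
    Pic.mk c = 0 := by
  rw [← mk_refine c V τ hV cov, Pic.mk_eq_zero_iff]
  refine ⟨fun j => (ht j).unit, fun j l W hj hl hjl => ?_⟩
  simp only [IsUnit.unit_spec, refine, Units.coe_map, RingHom.toMonoidHom_eq_coe, MonoidHom.coe_coe]
  exact (congrArg (· * res X hl (t l)) (res_res _ _ _)).symm ▸ h j l W hj hl

/-- The values of a pulled-back cocycle are the pull-backs of its values. -/
theorem comap_g (c : Coc X) (φ : Y ⟶ X) (a b : c.ι) {W : Y.Opens}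
    (h : W ≤ φ ⁻¹ᵁ c.U a ⊓ φ ⁻¹ᵁ c.U b) :
    res Y h ((c.comap φ).g a b).val =
      pl φ (h.trans (le_of_eq rfl)) (c.g a b : Γ(X, c.U a ⊓ c.U b)) :=
  res_pl φ _ h _

/-- Units trivialising the restriction of a cocycle to an open subscheme. -/
theorem exists_units_of_map_ι_eq_zero (c : Coc X) (W : X.Opens) (h : Pic.map W.ι (Pic.mk c) = 0) :
    ∃ t : ∀ a, Γ(X, c.U a ⊓ W), (∀ a, IsUnit (t a)) ∧
      ∀ (a b : c.ι) (W' : X.Opens) (ha : W' ≤ c.U a ⊓ W) (hb : W' ≤ c.U b ⊓ W),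
        res X ha (t a) = res X (le_inf (ha.trans inf_le_left) (hb.trans inf_le_left))
          (c.g a b : Γ(X, c.U a ⊓ c.U b)) * res X hb (t b) := by
  rw [Pic.map_mk, Pic.mk_eq_zero_iff] at h
  obtain ⟨s, hs⟩ := h
  have hle (a : c.ι) : W.ι ⁻¹ᵁ (c.U a ⊓ W) ≤ W.ι ⁻¹ᵁ c.U a := W.ι.preimage_mono inf_le_left
  choose t ht using fun a => (pl_ι_bijective W (inf_le_right : c.U a ⊓ W ≤ W)).2
    (res _ (hle a) (s a).val)
  refine ⟨t, fun a => ?_, fun a b W' ha hb => ?_⟩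
  · let e := RingEquiv.ofBijective _ (pl_ι_bijective W (inf_le_right : c.U a ⊓ W ≤ W))
    have : IsUnit (e (t a)) := by
      rw [RingEquiv.ofBijective_apply, ht]
      exact (s a).isUnit.map _
    exact isUnit_map_iff e _ |>.mp this
  · apply (pl_ι_bijective W (ha.trans inf_le_right)).1
    have key (d : c.ι) (hd : W' ≤ c.U d ⊓ W) : pl W.ι (le_refl (W.ι ⁻¹ᵁ W')) (res X hd (t d)) =
        res _ (W.ι.preimage_mono (hd.trans inf_le_left)) (s d).val := by
      rw [pl_res, ← res_pl W.ι (le_refl _) (W.ι.preimage_mono hd), ht, res_res]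
    rw [map_mul, key a ha, key b hb, pl_res]
    refine (hs a b (W.ι ⁻¹ᵁ W') _ (W.ι.preimage_mono (hb.trans inf_le_left))
        (le_inf (W.ι.preimage_mono (ha.trans inf_le_left))
      (W.ι.preimage_mono (hb.trans inf_le_left)))).trans ?_
    exact congrArg (· * _) (comap_g c W.ι a b _)

end Coc

end Fermat.Agent.AbVar

end
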